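/-
Transfers between the groups of homomorphisms of two subgroups of `SL(2, ℤ)`.

A family `M` of integral matrices with `M i * γ = g i * M (σ i)` (`γ ∈ Γ`, `g i ∈ Δ`) gives
`Hom(Δ, A) → Hom(Γ, A)`, `φ ↦ (γ ↦ ∑ φ (g i))`.
-/
import Fermat.Agent.Periods.Transfer
import Fermat.Agent.Periods.Defs
import Mathlib.Algebra.Module.LinearMap.Defs
import Mathlib.Data.Fintype.Prod

namespace Fermat.Agent.LevelRaise.Degeneracy

open Fermat.Agent.Periods Function
open scoped MatrixGroups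

variable {Δ Γ Θ : Subgroup SL(2, ℤ)} {ι κ : Type*} {A : Type*} [AddCommGroup A]

/-- `(σ, g)` describes right multiplication by `γ ∈ Γ` on the family `M` modulo `Δ` on the left. -/
def Step (M : ι → IntMat) (γ : Γ) (σ : Equiv.Perm ι) (g : ι → Δ) : Prop :=
  ∀ i, M i * gammaMat γ = gammaMat (g i) * M (σ i)

theorem Step.iterate {M : ι → IntMat} {γ : Γ} {σ : Equiv.Perm ι} {g : ι → Δ}
    (h : Step M γ σ g) (φ : Additive Δ →+ A) (n : ℕ) (i : ι) :
    ∃ x : Δ, M i * gammaMat (γ ^ n) = gammaMat x * M (σ^[n] i) ∧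
      φ (Additive.ofMul x) = ∑ m ∈ Finset.range n, φ (Additive.ofMul (g (σ^[m] i))) := by
  induction n with
  | zero => exact ⟨1, by simp [gammaMat_one], by simp⟩
  | succ n ih =>
    obtain ⟨x, hx, hφ⟩ := ih
    refine ⟨x * g (σ^[n] i), ?_, ?_⟩
    · rw [pow_succ, gammaMat_mul, ← Matrix.mul_assoc, hx, Matrix.mul_assoc, h (σ^[n] i),
        iterate_succ_apply', gammaMat_mul, Matrix.mul_assoc]
    · rw [ofMul_mul, map_add, hφ, Finset.sum_range_succ]

variable [Fintype ι] [Fintype κ]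

/-- Two descriptions of the same right multiplication give the same sum. -/
theorem Step.sum_eq {M : ι → IntMat} (hdet : ∀ i, (M i).det ≠ 0) {γ : Γ} {σ τ : Equiv.Perm ι}
    {g h : ι → Δ} (h₁ : Step M γ σ g) (h₂ : Step M γ τ h) (φ : Additive Δ →+ A) :
    ∑ i, φ (Additive.ofMul (g i)) = ∑ i, φ (Additive.ofMul (h i)) := by
  set π : Equiv.Perm ι := σ.symm.trans τ with hπ
  set d : ι → Δ := fun j => (g (σ.symm j))⁻¹ * h (σ.symm j) with hd
  have hs : Step M (1 : Γ) π d := by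
    intro j
    obtain ⟨i, rfl⟩ := σ.surjective j
    have : gammaMat (g i) * M (σ i) = gammaMat (h i) * M (τ i) := (h₁ i).symm.trans (h₂ i)
    simp only [hπ, hd, Equiv.trans_apply, Equiv.symm_apply_apply, gammaMat_one, Matrix.mul_one]
    rw [gammaMat_mul, Matrix.mul_assoc, ← this, ← Matrix.mul_assoc, ← gammaMat_mul,
      inv_mul_cancel, gammaMat_one, Matrix.one_mul]
  have h0 : ∑ j, φ (Additive.ofMul (d j)) = 0 := by
    refine sum_eq_zero_of_orbits π _ fun j n hn => ?_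
    obtain ⟨x, hx, hφ⟩ := hs.iterate φ n j
    rw [hn, one_pow, gammaMat_one, Matrix.mul_one] at hx
    have hx1 : x = 1 := gammaMat_injective (intMat_mul_right_cancel (hdet j) (by
      rw [gammaMat_one, Matrix.one_mul]; exact hx.symm))
    rw [← hφ, hx1, ofMul_one, map_zero]
  rw [← Equiv.sum_comp σ] at h0
  simp only [hd, Equiv.symm_apply_apply, ofMul_mul, ofMul_inv, map_add, map_neg,
    Finset.sum_add_distrib, Finset.sum_neg_distrib, neg_add_eq_zero] at h0
  exact h0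

/-- Two families representing the same cosets give the same sum. -/
theorem Step.sum_eq_of_equiv {M : ι → IntMat} {M' : κ → IntMat} (hdet : ∀ i, (M i).det ≠ 0)
    {γ : Γ} {σ : Equiv.Perm ι} {g : ι → Δ} (h₁ : Step M γ σ g) {τ : Equiv.Perm κ} {h : κ → Δ}
    (h₂ : Step M' γ τ h) (e : ι ≃ κ) (he : ∀ i, ∃ δ : Δ, M i = gammaMat δ * M' (e i))
    (φ : Additive Δ →+ A) :
    ∑ i, φ (Additive.ofMul (g i)) = ∑ i, φ (Additive.ofMul (h i)) := by
  choose δ hδ using he
  set π : Equiv.Perm ι := e.trans (τ.trans e.symm) with hπ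
  have hs : Step M γ π (fun i => δ i * h (e i) * (δ (π i))⁻¹) := by
    intro i
    have he' : e (π i) = τ (e i) := by simp [hπ]
    rw [hδ i, hδ (π i), Matrix.mul_assoc, h₂ (e i), he', ← Matrix.mul_assoc, ← Matrix.mul_assoc,
      ← gammaMat_mul, ← gammaMat_mul, inv_mul_cancel_right]
  rw [h₁.sum_eq hdet hs φ]
  simp only [ofMul_mul, ofMul_inv, map_add, map_neg, Finset.sum_add_distrib,
    Finset.sum_neg_distrib, Equiv.sum_comp π (fun i => φ (Additive.ofMul (δ i))),
    Equiv.sum_comp e (fun i => φ (Additive.ofMul (h i)))]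
  abel

/-- A family which represents pairwise distinct cosets of a set stable under `Γ` on the right. -/
structure IsFamily (Δ Γ : Subgroup SL(2, ℤ)) (M : ι → IntMat) : Prop where
  det_ne : ∀ i, (M i).det ≠ 0
  exists_step : ∀ (γ : Γ) (i : ι), ∃ (j : ι) (g : Δ), M i * gammaMat γ = gammaMat g * M j
  sep : ∀ (i j : ι) (g : Δ), M i = gammaMat g * M j → i = j

namespace IsFamily

variable {M : ι → IntMat} (hM : IsFamily Δ Γ M)
include hM

/-- The index moved to. -/
noncomputable def idx (γ : Γ) (i : ι) : ι := (hM.exists_step γ i).choose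

/-- The group element `g i`. -/
noncomputable def elt (γ : Γ) (i : ι) : Δ := (hM.exists_step γ i).choose_spec.choose

theorem spec (γ : Γ) (i : ι) : M i * gammaMat γ = gammaMat (hM.elt γ i) * M (hM.idx γ i) :=
  (hM.exists_step γ i).choose_spec.choose_spec

theorem idx_bijective (γ : Γ) : Bijective (hM.idx γ) := by
  refine Finite.injective_iff_bijective.1 fun a b hab => hM.sep a b
    (hM.elt γ a * (hM.elt γ b)⁻¹) (intMat_mul_right_cancel (M := gammaMat γ)
      (by rw [gammaMat_det]; exact one_ne_zero) ?_)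
  rw [Matrix.mul_assoc, hM.spec γ b, ← Matrix.mul_assoc, ← gammaMat_mul, inv_mul_cancel_right,
    hM.spec γ a, hab]

/-- Right multiplication as a permutation. -/
noncomputable def perm (γ : Γ) : Equiv.Perm ι := Equiv.ofBijective _ (hM.idx_bijective γ)

theorem step (γ : Γ) : Step M γ (hM.perm γ) (hM.elt γ) := fun i => hM.spec γ i

theorem sum_mul (φ : Additive Δ →+ A) (γ γ' : Γ) :
    ∑ i, φ (Additive.ofMul (hM.elt (γ * γ') i)) =
      (∑ i, φ (Additive.ofMul (hM.elt γ i))) + ∑ i, φ (Additive.ofMul (hM.elt γ' i)) := by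
  have h : Step M (γ * γ') ((hM.perm γ).trans (hM.perm γ'))
      (fun i => hM.elt γ i * hM.elt γ' (hM.perm γ i)) := fun i => by
    rw [Equiv.trans_apply, gammaMat_mul, gammaMat_mul, ← Matrix.mul_assoc, hM.step γ i,
      Matrix.mul_assoc, hM.step γ' (hM.perm γ i), Matrix.mul_assoc]
  rw [(hM.step (γ * γ')).sum_eq hM.det_ne h φ]
  simp only [ofMul_mul, map_add, Finset.sum_add_distrib]
  rw [Equiv.sum_comp (hM.perm γ) (fun i => φ (Additive.ofMul (hM.elt γ' i)))]

variable (A) in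
/-- The transfer attached to a family. -/
noncomputable def transfer : (Additive Δ →+ A) →ₗ[ℤ] (Additive Γ →+ A) where
  toFun φ := AddMonoidHom.mk' (fun γ => ∑ i, φ (Additive.ofMul (hM.elt (Additive.toMul γ) i)))
    (fun γ γ' => hM.sum_mul φ (Additive.toMul γ) (Additive.toMul γ'))
  map_add' φ ψ := by
    ext γ
    simp [Finset.sum_add_distrib]
  map_smul' c φ := by
    ext γ
    simp [Finset.smul_sum]

theorem transfer_apply (φ : Additive Δ →+ A) (γ : Γ) {σ : Equiv.Perm ι} {g : ι → Δ}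
    (h : Step M γ σ g) :
    hM.transfer A φ (Additive.ofMul γ) = ∑ i, φ (Additive.ofMul (g i)) :=
  (hM.step γ).sum_eq hM.det_ne h φ

theorem transfer_postcomp {B : Type*} [AddCommGroup B] (f : A →+ B) (φ : Additive Δ →+ A) :
    hM.transfer B (f.comp φ) = f.comp (hM.transfer A φ) := by
  refine AddMonoidHom.ext fun x => ?_
  obtain ⟨γ, rfl⟩ := Additive.ofMul.surjective x
  simp [hM.transfer_apply _ γ (hM.step γ), map_sum]

theorem transfer_mem_cuspidalHoms {φ : Additive Δ →+ A} (hφ : φ ∈ cuspidalHoms ℤ Δ A) :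
    hM.transfer A φ ∈ cuspidalHoms ℤ Γ A := by
  intro γ hγ
  rw [hM.transfer_apply φ γ (hM.step γ)]
  refine sum_eq_zero_of_orbits (hM.perm γ) _ fun i n hn => ?_
  obtain ⟨x, hx, hs⟩ := (hM.step γ).iterate φ n i
  rw [hn, gammaMat_pow] at hx
  rw [← hs]
  refine hφ x ?_
  show (gammaMat x).trace ^ 2 ≤ 4
  rw [intMat_trace_eq_of_conj (hM.det_ne i) hx]
  exact trace_pow_sq_le_four (gammaMat_det γ) hγ n

/-- Composing transfers: a step for the family of products, which computes the composite. -/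
theorem exists_step_transfer_transfer {M' : κ → IntMat} (hM' : IsFamily Γ Θ M')
    (φ : Additive Δ →+ A) (θ : Θ) :
    ∃ (σ : Equiv.Perm (κ × ι)) (g : κ × ι → Δ),
      Step (fun x : κ × ι => M x.2 * M' x.1) θ σ g ∧
        hM'.transfer A (hM.transfer A φ) (Additive.ofMul θ) = ∑ x, φ (Additive.ofMul (g x)) := by
  refine ⟨(Equiv.prodShear (hM'.perm θ) fun k => hM.perm (hM'.elt θ k)),
    fun x => hM.elt (hM'.elt θ x.1) x.2, fun x => ?_, ?_⟩
  · show M x.2 * M' x.1 * gammaMat θ = _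
    rw [Matrix.mul_assoc, hM'.step θ x.1, ← Matrix.mul_assoc, hM.step _ x.2, Matrix.mul_assoc]
    rfl
  · rw [hM'.transfer_apply _ θ (hM'.step θ), Fintype.sum_prod_type]
    exact Finset.sum_congr rfl fun k _ => hM.transfer_apply φ _ (hM.step _)

end IsFamily

variable {Γ₁ Γ₂ : Subgroup SL(2, ℤ)} {ι₁ ι₂ κ₁ κ₂ : Type*}
  [Fintype ι₁] [Fintype ι₂] [Fintype κ₁] [Fintype κ₂]

/-- Two composites of transfers agree when their families of products represent the same
cosets. -/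
theorem IsFamily.transfer_transfer_eq {M₁ : ι₁ → IntMat} {M₁' : κ₁ → IntMat}
    {M₂ : ι₂ → IntMat} {M₂' : κ₂ → IntMat}
    (h₁ : IsFamily Δ Γ₁ M₁) (h₁' : IsFamily Γ₁ Θ M₁')
    (h₂ : IsFamily Δ Γ₂ M₂) (h₂' : IsFamily Γ₂ Θ M₂')
    (e : κ₁ × ι₁ ≃ κ₂ × ι₂)
    (he : ∀ x, ∃ δ : Δ, M₁ x.2 * M₁' x.1 = gammaMat δ * (M₂ (e x).2 * M₂' (e x).1))
    (φ : Additive Δ →+ A) :
    h₁'.transfer A (h₁.transfer A φ) = h₂'.transfer A (h₂.transfer A φ) := by
  refine AddMonoidHom.ext fun x => ?_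
  obtain ⟨θ, rfl⟩ := Additive.ofMul.surjective x
  obtain ⟨σ, g, hs, hg⟩ := h₁.exists_step_transfer_transfer h₁' φ θ
  obtain ⟨τ, h, ht, hh⟩ := h₂.exists_step_transfer_transfer h₂' φ θ
  rw [hg, hh]
  exact hs.sum_eq_of_equiv
    (fun x => by rw [Matrix.det_mul]; exact mul_ne_zero (h₁.det_ne _) (h₁'.det_ne _)) ht e he φ

/-- A composite of transfers agrees with a transfer representing the same cosets. -/
theorem IsFamily.transfer_transfer_eq_transfer {M₁ : ι₁ → IntMat} {M₁' : κ₁ → IntMat}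
    {M : ι → IntMat} (h₁ : IsFamily Δ Γ₁ M₁) (h₁' : IsFamily Γ₁ Θ M₁') (hM : IsFamily Δ Θ M)
    (e : κ₁ × ι₁ ≃ ι) (he : ∀ x, ∃ δ : Δ, M₁ x.2 * M₁' x.1 = gammaMat δ * M (e x))
    (φ : Additive Δ →+ A) :
    h₁'.transfer A (h₁.transfer A φ) = hM.transfer A φ := by
  refine AddMonoidHom.ext fun x => ?_
  obtain ⟨θ, rfl⟩ := Additive.ofMul.surjective x
  obtain ⟨σ, g, hs, hg⟩ := h₁.exists_step_transfer_transfer h₁' φ θ
  rw [hg, hM.transfer_apply φ θ (hM.step θ)]
  exact hs.sum_eq_of_equiv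
    (fun x => by rw [Matrix.det_mul]; exact mul_ne_zero (h₁.det_ne _) (h₁'.det_ne _))
    (hM.step θ) e he φ

end Fermat.Agent.LevelRaise.Degeneracy
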