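/-
Coset representatives for the degeneracy maps between the levels `N` and `N * q`.
-/
import Fermat.Agent.LevelRaise.Degeneracy.Transfer
import Fermat.Agent.Periods.HeckeComm

namespace Fermat.Agent.LevelRaise.Degeneracy

open CongruenceSubgroup
open Fermat.Agent.Periods
open scoped MatrixGroups

variable {N q ℓ : ℕ}

theorem mul_entry (X Y : IntMat) (i j : Fin 2) :
    (X * Y) i j = X i 0 * Y 0 j + X i 1 * Y 1 j := by
  rw [Matrix.mul_apply, Fin.sum_univ_two]

theorem intMat_mul_left_cancel {X Y M : IntMat} (hM : M.det ≠ 0) (h : M * X = M * Y) : X = Y := by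
  have := congrArg (M.adjugate * ·) h
  simp only [← Matrix.mul_assoc, Matrix.adjugate_mul, Matrix.smul_mul, Matrix.one_mul] at this
  exact smul_right_injective _ hM this

theorem intMat_ext {X Y : IntMat} (h00 : X 0 0 = Y 0 0) (h01 : X 0 1 = Y 0 1) (h10 : X 1 0 = Y 1 0)
    (h11 : X 1 1 = Y 1 1) : X = Y := by
  ext i j; fin_cases i <;> fin_cases j <;> assumption

/-- A matrix with the lower left entry divisible by `N` and upper left entry prime to `N`. -/
def InS (N : ℕ) (Z : IntMat) : Prop := (N : ℤ) ∣ Z 1 0 ∧ IsCoprime (Z 0 0) (N : ℤ)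

theorem inS_gammaMat (γ : Gamma0 N) : InS N (gammaMat γ) := by
  obtain ⟨a, b, c, d, h, hdet, hc⟩ := gammaMat_entries γ
  refine ⟨by simpa [h] using hc, ?_⟩
  obtain ⟨t, rfl⟩ := hc
  rw [h]
  exact ⟨d, -(b * t), by simp; linear_combination hdet⟩

theorem InS.mul {X Y : IntMat} (hX : InS N X) (hY : InS N Y) : InS N (X * Y) := by
  refine ⟨?_, ?_⟩
  · rw [mul_entry]; exact dvd_add (hX.1.mul_right _) (hY.1.mul_left _)
  · obtain ⟨t, ht⟩ := hY.1
    rw [mul_entry, ht, show X 0 1 * ((N : ℤ) * t) = (N : ℤ) * (X 0 1 * t) by ring]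
    exact (hX.2.mul_left hY.2).add_mul_left_left _

theorem inS_heckeMat (hℓ : ℓ.Prime) (i : HeckeIdx N ℓ) : InS N (heckeMat N ℓ i) := by
  obtain ⟨_ | j, hi⟩ := i
  · refine ⟨by simp [heckeMat], ?_⟩
    simpa [heckeMat] using Nat.isCoprime_iff_coprime.2 (hℓ.coprime_iff_not_dvd.2 (hi rfl))
  · simp [InS, heckeMat, isCoprime_one_left]

theorem exists_gamma0_eq {Z : IntMat} (hdet : Z.det = 1) (hc : (N : ℤ) ∣ Z 1 0) :
    ∃ g : Gamma0 N, gammaMat g = Z := by
  rw [Matrix.det_fin_two] at hdet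
  obtain ⟨g, hg⟩ := exists_gamma0_of_entries (N := N) hdet hc
  exact ⟨g, by rw [hg]; exact (Matrix.eta_fin_two Z).symm⟩

/-- Matrices of prime determinant `ℓ` with `N ∣ c`, `(a, N) = 1` lie in the Hecke cosets. -/
theorem exists_hecke_rep {M : ℕ} (hℓ : ℓ.Prime) {Z : IntMat} (hdet : Z.det = ℓ)
    (hc : (M : ℤ) ∣ Z 1 0) (ha : ℓ ∣ M → ¬ (ℓ : ℤ) ∣ Z 0 0) :
    ∃ (k : HeckeIdx M ℓ) (g : Gamma0 M), Z = gammaMat g * heckeMat M ℓ k := by
  have hp : Prime (ℓ : ℤ) := Nat.prime_iff_prime_int.1 hℓ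
  have hl0 : (ℓ : ℤ) ≠ 0 := by exact_mod_cast hℓ.ne_zero
  obtain ⟨a, b, c, d, rfl⟩ : ∃ a b c d, Z = !![a, b; c, d] :=
    ⟨_, _, _, _, Matrix.eta_fin_two Z⟩
  simp only [Matrix.of_apply, Matrix.cons_val', Matrix.cons_val_zero, Matrix.cons_val_one,
    Matrix.cons_val_fin_one] at hc ha
  rw [Matrix.det_fin_two_of] at hdet
  by_cases h0 : (ℓ : ℤ) ∣ a ∧ (ℓ : ℤ) ∣ c
  · have hM : ¬ ℓ ∣ M := fun h => ha h h0.1
    obtain ⟨⟨a', rfl⟩, c', rfl⟩ := h0
    have hcop : IsCoprime (M : ℤ) (ℓ : ℤ) :=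
      (Nat.isCoprime_iff_coprime.2 (hℓ.coprime_iff_not_dvd.2 hM)).symm
    obtain ⟨g, hg⟩ := exists_gamma0_of_entries (N := M) (a := a') (b := b) (c := c') (d := d)
      (mul_left_cancel₀ hl0 (by linear_combination hdet)) (hcop.dvd_of_dvd_mul_left hc)
    refine ⟨⟨none, fun _ => hM⟩, g, ?_⟩
    simp only [heckeMat, Option.elim, hg, Matrix.mul_fin_two]
    congrm !![?_, ?_; ?_, ?_] <;> ring
  obtain ⟨k, hk1, hk2⟩ : ∃ k : Fin ℓ, (ℓ : ℤ) ∣ b - a * (k : ℕ) ∧ (ℓ : ℤ) ∣ d - c * (k : ℕ) := by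
    have hl : (ℓ : ℤ) ∣ a * d - b * c := by rw [hdet]
    by_cases haℓ : (ℓ : ℤ) ∣ a
    · have hcℓ : ¬ (ℓ : ℤ) ∣ c := fun h => h0 ⟨haℓ, h⟩
      obtain ⟨k, hk⟩ := exists_fin_mul_sub_dvd hℓ.ne_zero
        ((hp.coprime_iff_not_dvd.2 hcℓ).symm) d
      refine ⟨k, (hp.dvd_or_dvd (b := c) ?_).resolve_right hcℓ, hk⟩
      have : (b - a * (k : ℕ)) * c = a * (d - c * (k : ℕ)) - (a * d - b * c) := by ring
      rw [this]; exact dvd_sub (hk.mul_left a) hl
    · obtain ⟨k, hk⟩ := exists_fin_mul_sub_dvd hℓ.ne_zero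
        ((hp.coprime_iff_not_dvd.2 haℓ).symm) b
      refine ⟨k, hk, (hp.dvd_or_dvd (a := a) ?_).resolve_left haℓ⟩
      have : a * (d - c * (k : ℕ)) = (a * d - b * c) + c * (b - a * (k : ℕ)) := by ring
      rw [this]; exact dvd_add hl (hk.mul_left c)
  obtain ⟨B, hB⟩ := hk1
  obtain ⟨D, hD⟩ := hk2
  obtain ⟨g, hg⟩ := exists_gamma0_of_entries (N := M) (a := a) (b := B) (c := c) (d := D)
    (mul_left_cancel₀ hl0 (by linear_combination hdet - a * hD + c * hB)) hc
  refine ⟨⟨some k, by simp⟩, g, ?_⟩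
  simp only [heckeMat, Option.elim, hg, Matrix.mul_fin_two]
  congrm !![?_, ?_; ?_, ?_]
  · ring
  · linear_combination hB
  · ring
  · linear_combination hD

theorem isFamily_hecke (hℓ : ℓ.Prime) : IsFamily (Gamma0 N) (Gamma0 N) (heckeMat N ℓ) :=
  ⟨heckeMat_det_ne_zero hℓ, exists_transfer hℓ, heckeMat_separated hℓ⟩

theorem heckeHom_eq_transfer {A : Type*} [AddCommGroup A] (hℓ : ℓ.Prime)
    (φ : Additive (Gamma0 N) →+ A) :
    heckeHom ℤ A hℓ φ = (isFamily_hecke hℓ).transfer A φ := by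
  refine AddMonoidHom.ext fun x => ?_
  obtain ⟨γ, rfl⟩ := Additive.ofMul.surjective x
  rw [(isFamily_hecke hℓ).transfer_apply φ γ (σ := transferPerm hℓ γ) (g := transferElt hℓ γ)
    (transfer_spec hℓ γ), heckeHom_apply]

theorem not_dvd_of_inS (hℓ : ℓ.Prime) {Z : IntMat} (hZ : InS N Z) (h : ℓ ∣ N) :
    ¬ (ℓ : ℤ) ∣ Z 0 0 := fun hd =>
  (Nat.prime_iff_prime_int.1 hℓ).not_isUnit
    (hZ.2.isUnit_of_dvd' hd (Int.natCast_dvd_natCast.2 h))

section Reps

/-- The matrix `diag(q, 1)`. -/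
def deltaMat (q : ℕ) : IntMat := !![(q : ℤ), 0; 0, 1]

/-- The matrix `diag(1, q)`. -/
def deltaBar (q : ℕ) : IntMat := !![1, 0; 0, (q : ℤ)]

theorem deltaMat_det (q : ℕ) : (deltaMat q).det = q := by simp [deltaMat, Matrix.det_fin_two_of]

theorem deltaBar_det (q : ℕ) : (deltaBar q).det = q := by simp [deltaBar, Matrix.det_fin_two_of]

/-- Representatives of `Γ₀(Nq) \ Γ₀(N)`. -/
def resRep (N q : ℕ) : Option (Fin q) → IntMat
  | none => 1
  | some j => !![1, (j : ℤ); (N : ℤ), (N : ℤ) * (j : ℤ) + 1]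

/-- Some `r`, `s` with `q r - N s = 1` (when `q`, `N` are coprime). -/
noncomputable def bezoutR (N q : ℕ) : ℤ := Int.gcdA (q : ℤ) (N : ℤ)

/-- Some `r`, `s` with `q r - N s = 1` (when `q`, `N` are coprime). -/
noncomputable def bezoutS (N q : ℕ) : ℤ := -Int.gcdB (q : ℤ) (N : ℤ)

theorem bezout_eq (hq : q.Prime) (hqN : ¬ q ∣ N) :
    (q : ℤ) * bezoutR N q - (N : ℤ) * bezoutS N q = 1 := by
  have h := Int.gcd_eq_gcd_ab (q : ℤ) (N : ℤ)
  rw [show Int.gcd (q : ℤ) (N : ℤ) = 1 from hq.coprime_iff_not_dvd.2 hqN] at h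
  simp only [bezoutR, bezoutS]
  push_cast at h
  linear_combination -h

/-- Representatives of `(Γ⁰(q) ∩ Γ₀(N)) \ Γ₀(N)`. -/
noncomputable def upRep (N q : ℕ) : Option (Fin q) → IntMat
  | none => !![(q : ℤ), bezoutS N q; (N : ℤ), bezoutR N q]
  | some j => !![1, (j : ℤ); 0, 1]

/-- Representatives of `Γ₀(Nq) \ Γ₀(Nq) diag(1, q) Γ₀(N)`. -/
noncomputable def degRep (N q : ℕ) (i : Option (Fin q)) : IntMat := deltaBar q * upRep N q i

theorem resRep_det (N q : ℕ) (i : Option (Fin q)) : (resRep N q i).det = 1 := by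
  cases i <;> simp [resRep, Matrix.det_fin_two_of]; ring

theorem upRep_det (hq : q.Prime) (hqN : ¬ q ∣ N) (i : Option (Fin q)) :
    (upRep N q i).det = 1 := by
  cases i <;> simp [upRep, Matrix.det_fin_two_of]
  linear_combination bezout_eq hq hqN

theorem degRep_det (hq : q.Prime) (hqN : ¬ q ∣ N) (i : Option (Fin q)) :
    (degRep N q i).det = q := by
  rw [degRep, Matrix.det_mul, upRep_det hq hqN, deltaBar_det, mul_one]

theorem exists_resRep (i : Option (Fin q)) : ∃ g : Gamma0 N, gammaMat g = resRep N q i :=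
  exists_gamma0_eq (resRep_det N q i) (by cases i <;> simp [resRep])

theorem exists_upRep (hq : q.Prime) (hqN : ¬ q ∣ N) (i : Option (Fin q)) :
    ∃ g : Gamma0 N, gammaMat g = upRep N q i :=
  exists_gamma0_eq (upRep_det hq hqN i) (by cases i <;> simp [upRep])

theorem isCoprime_cast (hq : q.Prime) (hqN : ¬ q ∣ N) : IsCoprime (q : ℤ) (N : ℤ) :=
  Nat.isCoprime_iff_coprime.2 (hq.coprime_iff_not_dvd.2 hqN)

theorem dvd_mul_of_dvd_of_dvd (hq : q.Prime) (hqN : ¬ q ∣ N) {x : ℤ} (h1 : (N : ℤ) ∣ x)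
    (h2 : (q : ℤ) ∣ x) : ((N * q : ℕ) : ℤ) ∣ x := by
  push_cast
  exact (isCoprime_cast hq hqN).symm.mul_dvd h1 h2

/-- Every matrix with `N ∣ c` is, on the left, a lower-left-`q` matrix times a representative. -/
theorem exists_cover_res (hq : q.Prime) (hqN : ¬ q ∣ N) {Z : IntMat} (hc : (N : ℤ) ∣ Z 1 0) :
    ∃ (j : Option (Fin q)) (W : IntMat), Z = W * resRep N q j ∧ ((N * q : ℕ) : ℤ) ∣ W 1 0 := by
  by_cases hqc : (q : ℤ) ∣ Z 1 0
  · exact ⟨none, Z, by simp [resRep], dvd_mul_of_dvd_of_dvd hq hqN hc hqc⟩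
  have hp : Prime (q : ℤ) := Nat.prime_iff_prime_int.1 hq
  have hcop : IsCoprime ((N : ℤ) * Z 1 0) (q : ℤ) :=
    (isCoprime_cast hq hqN).symm.mul_left ((hp.coprime_iff_not_dvd.2 hqc).symm)
  obtain ⟨j, t, ht⟩ := exists_fin_mul_sub_dvd hq.ne_zero hcop ((N : ℤ) * Z 1 1 - Z 1 0)
  obtain ⟨a, b, c, d, rfl⟩ : ∃ a b c d, Z = !![a, b; c, d] :=
    ⟨_, _, _, _, Matrix.eta_fin_two Z⟩
  simp at hc ht
  refine ⟨some j, !![a * ((N : ℤ) * (j : ℤ) + 1) - b * N, b - a * (j : ℤ);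
    c * ((N : ℤ) * (j : ℤ) + 1) - d * N, d - c * (j : ℤ)], ?_, ?_⟩
  · simp only [resRep, Matrix.mul_fin_two]
    congrm !![?_, ?_; ?_, ?_] <;> ring
  · apply dvd_mul_of_dvd_of_dvd hq hqN
    · simp only [Matrix.of_apply, Matrix.cons_val', Matrix.cons_val_zero, Matrix.cons_val_one,
        Matrix.cons_val_fin_one]
      exact dvd_sub (hc.mul_right _) (dvd_mul_left _ _)
    · exact ⟨-t, by simp; linear_combination -ht⟩

/-- Every matrix is, on the left, an upper-right-`q` matrix times a representative. -/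
theorem exists_cover_up (hq : q.Prime) (hqN : ¬ q ∣ N) (Z : IntMat) :
    ∃ (j : Option (Fin q)) (W : IntMat), Z = W * upRep N q j ∧ (q : ℤ) ∣ W 0 1 ∧
      ((N : ℤ) ∣ Z 1 0 → (N : ℤ) ∣ W 1 0) := by
  have hrs := bezout_eq hq hqN
  obtain ⟨a, b, c, d, rfl⟩ : ∃ a b c d, Z = !![a, b; c, d] :=
    ⟨_, _, _, _, Matrix.eta_fin_two Z⟩
  by_cases hqa : (q : ℤ) ∣ a
  · refine ⟨none, !![a * bezoutR N q - b * N, b * q - a * bezoutS N q;
      c * bezoutR N q - d * N, d * q - c * bezoutS N q], ?_, ?_, ?_⟩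
    · simp only [upRep, Matrix.mul_fin_two]
      congrm !![?_, ?_; ?_, ?_]
      · linear_combination -a * hrs
      · linear_combination -b * hrs
      · linear_combination -c * hrs
      · linear_combination -d * hrs
    · simp only [Matrix.of_apply, Matrix.cons_val', Matrix.cons_val_zero, Matrix.cons_val_one,
        Matrix.cons_val_fin_one]
      exact dvd_sub (dvd_mul_left _ _) (hqa.mul_right _)
    · intro hc
      simp at hc ⊢
      exact dvd_sub (hc.mul_right _) (dvd_mul_left _ _)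
  · obtain ⟨j, hj⟩ := exists_fin_mul_sub_dvd hq.ne_zero
      (((Nat.prime_iff_prime_int.1 hq).coprime_iff_not_dvd.2 hqa).symm) b
    refine ⟨some j, !![a, b - a * (j : ℤ); c, d - c * (j : ℤ)], ?_, by simpa using hj,
      fun hc => by simpa using hc⟩
    simp only [upRep, Matrix.mul_fin_two]
    congrm !![?_, ?_; ?_, ?_] <;> ring

theorem resRep_sep (hq : q.Prime) (hqN : ¬ q ∣ N) (i j : Option (Fin q)) (g : Gamma0 (N * q))
    (h : resRep N q i = gammaMat g * resRep N q j) : i = j := by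
  obtain ⟨a, b, c, d, hg, -, hc⟩ := gammaMat_entries g
  have hqc : (q : ℤ) ∣ c := (Int.natCast_dvd_natCast.2 (dvd_mul_left q N)).trans hc
  have hp : Prime (q : ℤ) := Nat.prime_iff_prime_int.1 hq
  have hN : ¬ (q : ℤ) ∣ (N : ℤ) := fun h => hqN (Int.natCast_dvd_natCast.1 h)
  rw [hg] at h
  obtain ⟨c', rfl⟩ := hqc
  have h00 := congrFun (congrFun h 0) 0
  have h10 := congrFun (congrFun h 1) 0
  have h11 := congrFun (congrFun h 1) 1
  cases i with
  | none =>
    cases j with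
    | none => rfl
    | some j =>
      simp [resRep] at h00 h10 h11
      exfalso
      have hd : (q : ℤ) ∣ d * N := ⟨-c', by linear_combination -h10⟩
      rcases hp.dvd_or_dvd hd with hd | hd
      · obtain ⟨d', rfl⟩ := hd
        exact hp.not_dvd_one ⟨c' * (j : ℤ) + d' * ((N : ℤ) * (j : ℤ) + 1),
          by linear_combination h11⟩
      · exact hN hd
  | some i =>
    cases j with
    | none =>
      simp [resRep] at h00 h10 h11
      exact absurd ⟨c', h10⟩ hN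
    | some j =>
      simp [resRep] at h00 h10 h11
      have hd : (q : ℤ) ∣ (N : ℤ) * (d - 1) := ⟨-c', by linear_combination -h10⟩
      obtain ⟨d', hd'⟩ := (isCoprime_cast hq hqN).dvd_of_dvd_mul_left hd
      obtain ⟨t, ht⟩ := (isCoprime_cast hq hqN).dvd_of_dvd_mul_left
        (x := (q : ℤ)) (z := ((i : ℕ) : ℤ) - (j : ℕ))
        ⟨c' * (j : ℤ) + d' * ((N : ℤ) * (j : ℤ) + 1),
          by linear_combination h11 + ((N : ℤ) * (j : ℤ) + 1) * hd'⟩
      exact congrArg some (fin_eq_of_dvd_sub (x := t) (by linear_combination ht))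

theorem upRep_sep (hq : q.Prime) (hqN : ¬ q ∣ N) (i j : Option (Fin q)) {W : IntMat}
    (hW : (q : ℤ) ∣ W 0 1) (h : upRep N q i = W * upRep N q j) : i = j := by
  have hp : Prime (q : ℤ) := Nat.prime_iff_prime_int.1 hq
  have hrs := bezout_eq hq hqN
  have hs : ¬ (q : ℤ) ∣ bezoutS N q := by
    rintro ⟨t, ht⟩
    exact hp.not_dvd_one ⟨bezoutR N q - N * t, by rw [ht] at hrs; linear_combination -hrs⟩
  obtain ⟨a, b, c, d, rfl⟩ : ∃ a b c d, W = !![a, b; c, d] :=
    ⟨_, _, _, _, Matrix.eta_fin_two W⟩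
  obtain ⟨b', hb⟩ : (q : ℤ) ∣ b := by simpa using hW
  subst hb
  have h00 := congrFun (congrFun h 0) 0
  have h01 := congrFun (congrFun h 0) 1
  cases i with
  | none =>
    cases j with
    | none => rfl
    | some j =>
      simp [upRep] at h00 h01
      exact absurd ⟨(j : ℤ) + b', by rw [← h00] at h01; linear_combination h01⟩ hs
  | some i =>
    cases j with
    | none =>
      simp [upRep] at h00 h01
      exact absurd ⟨a + b' * N, by linear_combination h00⟩ hp.not_dvd_one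
    | some j =>
      simp [upRep] at h00 h01
      exact congrArg some (fin_eq_of_dvd_sub (x := b')
        (by rw [← h00] at h01; linear_combination h01))

theorem deltaBar_conj (hq : q.Prime) (hqN : ¬ q ∣ N) {W : IntMat} (hdet : W.det = 1)
    (hc : (N : ℤ) ∣ W 1 0) (hb : (q : ℤ) ∣ W 0 1) :
    ∃ g : Gamma0 (N * q), deltaBar q * W = gammaMat g * deltaBar q := by
  obtain ⟨a, b, c, d, rfl⟩ : ∃ a b c d, W = !![a, b; c, d] :=
    ⟨_, _, _, _, Matrix.eta_fin_two W⟩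
  simp at hc hb
  rw [Matrix.det_fin_two_of] at hdet
  obtain ⟨b', rfl⟩ := hb
  obtain ⟨g, hg⟩ := exists_gamma0_of_entries (N := N * q) (a := a) (b := b') (c := (q : ℤ) * c)
    (d := d) (by linear_combination hdet)
    (dvd_mul_of_dvd_of_dvd hq hqN (hc.mul_left _) (dvd_mul_right _ _))
  refine ⟨g, ?_⟩
  simp only [hg, deltaBar, Matrix.mul_fin_two]
  congrm !![?_, ?_; ?_, ?_] <;> ring

theorem isFamily_res (hq : q.Prime) (hqN : ¬ q ∣ N) :
    IsFamily (Gamma0 (N * q)) (Gamma0 N) (resRep N q) where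
  det_ne i := by rw [resRep_det]; exact one_ne_zero
  exists_step γ i := by
    obtain ⟨g₀, hg₀⟩ := exists_resRep (N := N) i
    obtain ⟨j, W, hW, hc⟩ := exists_cover_res hq hqN (inS_gammaMat (g₀ * γ)).1
    have hdet : W.det = 1 := by
      have := congrArg Matrix.det hW
      rwa [gammaMat_det, Matrix.det_mul, resRep_det, mul_one, eq_comm] at this
    obtain ⟨g, hg⟩ := exists_gamma0_eq hdet hc
    exact ⟨j, g, by rw [← hg₀, ← gammaMat_mul, hW, hg]⟩
  sep := resRep_sep hq hqN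

theorem degRep_sep (hq : q.Prime) (hqN : ¬ q ∣ N) (i j : Option (Fin q)) (g : Gamma0 (N * q))
    (h : degRep N q i = gammaMat g * degRep N q j) : i = j := by
  obtain ⟨a, b, c, d, hg, -, hc⟩ := gammaMat_entries g
  obtain ⟨c', hc'⟩ := (Int.natCast_dvd_natCast.2 (dvd_mul_left q N)).trans hc
  refine upRep_sep hq hqN i j (W := !![a, (q : ℤ) * b; c', d]) (by simp) ?_
  refine intMat_mul_left_cancel (M := deltaBar q)
    (by rw [deltaBar_det]; exact_mod_cast hq.ne_zero) ?_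
  rw [← Matrix.mul_assoc]
  have : deltaBar q * !![a, (q : ℤ) * b; c', d] = gammaMat g * deltaBar q := by
    simp only [hg, deltaBar, Matrix.mul_fin_two]
    congrm !![?_, ?_; ?_, ?_]
    · ring
    · ring
    · linear_combination -hc'
    · ring
  rw [this, Matrix.mul_assoc]
  exact h

theorem isFamily_deg (hq : q.Prime) (hqN : ¬ q ∣ N) :
    IsFamily (Gamma0 (N * q)) (Gamma0 N) (degRep N q) where
  det_ne i := by rw [degRep_det hq hqN]; exact_mod_cast hq.ne_zero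
  exists_step γ i := by
    obtain ⟨g₀, hg₀⟩ := exists_upRep hq hqN i
    obtain ⟨j, W, hW, hb, hc⟩ := exists_cover_up hq hqN (gammaMat (g₀ * γ))
    have hdet : W.det = 1 := by
      have := congrArg Matrix.det hW
      rwa [gammaMat_det, Matrix.det_mul, upRep_det hq hqN, mul_one, eq_comm] at this
    obtain ⟨g, hg⟩ := deltaBar_conj hq hqN hdet (hc (inS_gammaMat _).1) hb
    exact ⟨j, g, by
      rw [degRep, degRep, ← hg₀, Matrix.mul_assoc, ← gammaMat_mul, hW, ← Matrix.mul_assoc, hg,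
        Matrix.mul_assoc]⟩
  sep := degRep_sep hq hqN

theorem isFamily_one :
    IsFamily (Gamma0 N) (Gamma0 (N * q)) (fun _ : Unit => (1 : IntMat)) where
  det_ne _ := by simp
  exists_step γ i := by
    obtain ⟨g, hg⟩ := exists_gamma0_eq (N := N) (Z := gammaMat γ) (gammaMat_det γ)
      ((Int.natCast_dvd_natCast.2 (dvd_mul_right N q)).trans (inS_gammaMat γ).1)
    exact ⟨i, g, by rw [Matrix.one_mul, Matrix.mul_one, hg]⟩
  sep _ _ _ _ := Subsingleton.elim _ _

theorem isFamily_delta [NeZero q] :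
    IsFamily (Gamma0 N) (Gamma0 (N * q)) (fun _ : Unit => deltaMat q) where
  det_ne _ := by rw [deltaMat_det]; exact_mod_cast NeZero.ne q
  exists_step γ i := by
    obtain ⟨a, b, c, d, hγ, hdet, hc⟩ := gammaMat_entries γ
    push_cast at hc
    obtain ⟨t, rfl⟩ := hc
    obtain ⟨g, hg⟩ := exists_gamma0_of_entries (N := N) (a := a) (b := (q : ℤ) * b)
      (c := (N : ℤ) * t) (d := d) (by linear_combination hdet) (dvd_mul_right _ _)
    refine ⟨i, g, ?_⟩
    simp only [hγ, hg, deltaMat, Matrix.mul_fin_two]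
    congrm !![?_, ?_; ?_, ?_] <;> ring
  sep _ _ _ _ := Subsingleton.elim _ _

end Reps

end Fermat.Agent.LevelRaise.Degeneracy
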